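import Mathlib
import Fermat.Prelude.Def_FLTPrelim_Ramification

/-!
# Program FF, leaf (RAT), part 0 : inertia, roots of unity, Teichmüller lifts

`L` a field, `A ⊂ L` a valuation subring, `k = A/𝔪`.

* `FfrtInert A σ` : the automorphism `σ` of `L` preserves `A` and induces the identity on `k`
  (`ffrt_inert_of_mem` : the elements of the Prelude's `A.inertiaSubgroupIn K` have this property);
* `ffrt_root_mem` : roots of unity lie in `A`;
* `ffrt_root_sub_one_unit` : if `n` is a unit of `A`, `ζ ^ n = 1`, `ζ ≠ 1` then `ζ - 1 ∈ A^×`;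
* `ffrt_inert_fix_root` : inertia fixes the roots of unity of order invertible in `A`;
* `ffrt_exists_teich` : (`L` algebraically closed, `k` algebraic over `𝔽_ℓ`) every element of `k` is
  `0` or the residue of a root of unity of order prime to `ℓ`.
-/

set_option autoImplicit false
set_option linter.unusedSectionVars false
set_option linter.style.haveILetI false

noncomputable section

namespace Fermat.Agent.FF

open IsLocalRing ValuationSubring Polynomial
open scoped Pointwise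

section Inert

variable {L : Type*} [Field L] (A : ValuationSubring L)

/-- `σ` preserves `A` and induces the identity on the residue field. -/
def FfrtInert {K : Type*} [Field K] [Algebra K L] (σ : L ≃ₐ[K] L) : Prop :=
  (∀ a : L, a ∈ A ↔ σ a ∈ A) ∧ ∀ a : L, a ∈ A → σ a - a ∈ A.nonunits

variable {A}

theorem ffrt_nonunits_add {a b : L} (ha : a ∈ A.nonunits) (hb : b ∈ A.nonunits) :
    a + b ∈ A.nonunits := by
  rw [ValuationSubring.mem_nonunits_iff_exists_mem_maximalIdeal] at ha hb ⊢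
  obtain ⟨ha1, ha2⟩ := ha
  obtain ⟨hb1, hb2⟩ := hb
  exact ⟨A.add_mem _ _ ha1 hb1, (maximalIdeal A).add_mem ha2 hb2⟩

theorem ffrt_nonunits_neg {a : L} (ha : a ∈ A.nonunits) : -a ∈ A.nonunits := by
  rw [ValuationSubring.mem_nonunits_iff_exists_mem_maximalIdeal] at ha ⊢
  obtain ⟨ha1, ha2⟩ := ha
  exact ⟨A.neg_mem _ ha1, (maximalIdeal A).neg_mem ha2⟩

theorem ffrt_nonunits_mul_mem {a b : L} (ha : a ∈ A) (hb : b ∈ A.nonunits) :
    a * b ∈ A.nonunits := by
  rw [ValuationSubring.mem_nonunits_iff_exists_mem_maximalIdeal] at hb ⊢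
  obtain ⟨hb1, hb2⟩ := hb
  exact ⟨A.mul_mem _ _ ha hb1, (maximalIdeal A).mul_mem_left ⟨a, ha⟩ hb2⟩

variable {K : Type*} [Field K] [Algebra K L]

theorem FfrtInert.one : FfrtInert A (1 : L ≃ₐ[K] L) :=
  ⟨fun _ => Iff.rfl, fun a _ => by
    show a - a ∈ A.nonunits
    rw [sub_self, ValuationSubring.mem_nonunits_iff, map_zero]; exact zero_lt_one⟩

theorem FfrtInert.mul {σ τ : L ≃ₐ[K] L} (hσ : FfrtInert A σ) (hτ : FfrtInert A τ) :
    FfrtInert A (σ * τ) := by
  refine ⟨fun a => ((hτ.1 a).trans (hσ.1 (τ a))), fun a ha => ?_⟩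
  have h1 := hσ.2 (τ a) ((hτ.1 a).mp ha)
  have h2 := hτ.2 a ha
  have : (σ * τ) a - a = (σ (τ a) - τ a) + (τ a - a) := by
    show σ (τ a) - a = _
    ring
  rw [this]
  exact ffrt_nonunits_add h1 h2

theorem FfrtInert.inv {σ : L ≃ₐ[K] L} (hσ : FfrtInert A σ) : FfrtInert A σ⁻¹ := by
  have hinv : ∀ a : L, σ (σ⁻¹ a) = a := fun a => σ.apply_symm_apply a
  refine ⟨fun a => ?_, fun a ha => ?_⟩
  · rw [hσ.1 (σ⁻¹ a), hinv]
  · have hb : σ⁻¹ a ∈ A := by rw [hσ.1 (σ⁻¹ a), hinv]; exact ha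
    have h1 := hσ.2 (σ⁻¹ a) hb
    rw [hinv] at h1
    have : σ⁻¹ a - a = -(a - σ⁻¹ a) := by ring
    rw [this]
    exact ffrt_nonunits_neg h1

/-- the inertia elements as a subgroup -/
def ffrtI (K : Type*) [Field K] [Algebra K L] (A : ValuationSubring L) : Subgroup (L ≃ₐ[K] L) where
  carrier := {σ | FfrtInert A σ}
  mul_mem' := fun h1 h2 => FfrtInert.mul h1 h2
  one_mem' := FfrtInert.one
  inv_mem' := fun h => FfrtInert.inv h

theorem mem_ffrtI {σ : L ≃ₐ[K] L} : σ ∈ ffrtI K A ↔ FfrtInert A σ := Iff.rfl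

/-- the elements of the Prelude's inertia subgroup are inert. -/
theorem ffrt_inert_of_mem {σ : L ≃ₐ[K] L} (hσ : σ ∈ A.inertiaSubgroupIn K) : FfrtInert A σ := by
  obtain ⟨g, hg, rfl⟩ := hσ
  have hstab : (g : L ≃ₐ[K] L) • A = A := g.2
  have hmem : ∀ a : L, a ∈ A → (g : L ≃ₐ[K] L) a ∈ A := by
    intro a ha
    have : (g : L ≃ₐ[K] L) • a ∈ (g : L ≃ₐ[K] L) • A :=
      ValuationSubring.smul_mem_pointwise_smul _ _ _ ha
    rw [hstab] at this
    exact this
  have hmem' : ∀ a : L, (g : L ≃ₐ[K] L) a ∈ A → a ∈ A := by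
    intro a ha
    have ha' : (g : L ≃ₐ[K] L) a ∈ (g : L ≃ₐ[K] L) • A := hstab.symm ▸ ha
    obtain ⟨b, hb, hba⟩ := (ValuationSubring.mem_smul_pointwise_iff_exists _ _ _).mp ha'
    have : b = a := (g : L ≃ₐ[K] L).injective hba
    rw [← this]; exact hb
  refine ⟨fun a => ⟨hmem a, hmem' a⟩, fun a ha => ?_⟩
  have hker : MulSemiringAction.toRingAut (A.decompositionSubgroup K) (ResidueField A) g = 1 := hg
  have h1 : g • residue A ⟨a, ha⟩ = residue A ⟨a, ha⟩ := by
    have := congrArg (fun f : RingAut (ResidueField A) => f (residue A ⟨a, ha⟩)) hker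
    simpa using this
  rw [← IsLocalRing.ResidueField.residue_smul] at h1
  have h2 : residue A (g • (⟨a, ha⟩ : A) - ⟨a, ha⟩) = 0 := by rw [map_sub, h1, sub_self]
  rw [residue_eq_zero_iff] at h2
  rw [ValuationSubring.mem_nonunits_iff_exists_mem_maximalIdeal]
  exact ⟨sub_mem (hmem a ha) ha, h2⟩

end Inert


section Roots

variable {L : Type*} [Field L] {A : ValuationSubring L}

/-- roots of unity lie in every valuation subring. -/
theorem ffrt_root_mem {ζ : L} {n : ℕ} (hn : 0 < n) (h : ζ ^ n = 1) : ζ ∈ A := by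
  by_contra hmem
  have h1 : 1 < A.valuation ζ := not_le.mp (mt (A.valuation_le_one_iff ζ).mp hmem)
  have h2 := one_lt_pow₀ h1 hn.ne'
  rw [← map_pow, h, map_one] at h2
  exact lt_irrefl _ h2

theorem ffrt_root_valuation {ζ : L} {n : ℕ} (hn : 0 < n) (h : ζ ^ n = 1) : A.valuation ζ = 1 := by
  have hζ0 : ζ ≠ 0 := by
    rintro rfl
    rw [zero_pow hn.ne'] at h
    exact zero_ne_one h
  have h1 : A.valuation ζ ≤ 1 := (A.valuation_le_one_iff ζ).mpr (ffrt_root_mem hn h)
  have hinv : ζ⁻¹ ^ n = 1 := by rw [inv_pow, h, inv_one]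
  have h2 : A.valuation ζ⁻¹ ≤ 1 := (A.valuation_le_one_iff _).mpr (ffrt_root_mem hn hinv)
  rw [map_inv₀] at h2
  have h3 : A.valuation ζ ≠ 0 := (A.valuation.ne_zero_iff).mpr hζ0
  have h4 : 1 ≤ A.valuation ζ := by
    rwa [inv_le_one₀ (zero_lt_iff.mpr h3)] at h2
  exact le_antisymm h1 h4

/-- natural numbers lie in `A`. -/
theorem ffrt_natCast_mem (n : ℕ) : (n : L) ∈ A := by
  have : (n : L) = ((n : A) : L) := by push_cast; rfl
  rw [this]; exact (n : A).2

/-- a divisor of a unit natural number is a unit. -/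
theorem ffrt_valuation_natCast_of_dvd {d n : ℕ} (hdn : d ∣ n) (hn : A.valuation (n : L) = 1) :
    A.valuation (d : L) = 1 := by
  obtain ⟨e, rfl⟩ := hdn
  have h1 : A.valuation (d : L) ≤ 1 := (A.valuation_le_one_iff _).mpr (ffrt_natCast_mem d)
  have h2 : A.valuation (e : L) ≤ 1 := (A.valuation_le_one_iff _).mpr (ffrt_natCast_mem e)
  rw [Nat.cast_mul, map_mul] at hn
  refine le_antisymm h1 ?_
  calc (1 : A.ValueGroup) = A.valuation (d : L) * A.valuation (e : L) := hn.symm
    _ ≤ A.valuation (d : L) * 1 := by gcongr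
    _ = A.valuation (d : L) := mul_one _

/-- `n` invertible in `A`, `ζ ^ n = 1`, `ζ ≠ 1` ⟹ `1 - ζ` is a unit of `A`. -/
theorem ffrt_one_sub_root_valuation {ζ : L} {n : ℕ} (hn : 0 < n) (hnA : A.valuation (n : L) = 1)
    (h : ζ ^ n = 1) (h1 : ζ ≠ 1) : A.valuation (1 - ζ) = 1 := by
  have hd : orderOf ζ ∣ n := orderOf_dvd_of_pow_eq_one h
  have hd0 : 0 < orderOf ζ := Nat.pos_of_dvd_of_pos hd hn
  have hd1 : orderOf ζ ≠ 1 := fun h' => h1 (orderOf_eq_one_iff.mp h')
  obtain ⟨m, hm⟩ : ∃ m, orderOf ζ = m + 1 + 1 := ⟨orderOf ζ - 2, by omega⟩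
  have hprim : IsPrimitiveRoot ζ (m + 1 + 1) := hm ▸ IsPrimitiveRoot.orderOf ζ
  have hprod := hprim.prod_one_sub_pow_eq_order
  rw [Finset.prod_range_succ'] at hprod
  simp only [zero_add, pow_one] at hprod
  have hv : A.valuation ((m + 1 + 1 : ℕ) : L) = 1 :=
    ffrt_valuation_natCast_of_dvd (hm ▸ hd) hnA
  have hle : A.valuation (1 - ζ) ≤ 1 :=
    (A.valuation_le_one_iff _).mpr (sub_mem (ValuationSubring.one_mem A) (ffrt_root_mem hn h))
  have hle2 : A.valuation (∏ k ∈ Finset.range m, (1 - ζ ^ (k + 1 + 1))) ≤ 1 := by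
    rw [A.valuation_le_one_iff]
    refine Subring.prod_mem _ fun k _ => sub_mem (ValuationSubring.one_mem A) ?_
    exact ffrt_root_mem hn (by rw [← pow_mul, mul_comm, pow_mul, h, one_pow])
  have hv' : A.valuation (∏ k ∈ Finset.range m, (1 - ζ ^ (k + 1 + 1))) * A.valuation (1 - ζ) = 1 := by
    rw [← map_mul, hprod]
    push_cast at hv ⊢
    exact hv
  refine le_antisymm hle ?_
  calc (1 : A.ValueGroup) = _ := hv'.symm
    _ ≤ 1 * A.valuation (1 - ζ) := by gcongr
    _ = A.valuation (1 - ζ) := one_mul _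

/-- inertia fixes the roots of unity of order invertible in `A`. -/
theorem ffrt_inert_fix_root {K : Type*} [Field K] [Algebra K L] {σ : L ≃ₐ[K] L}
    (hσ : FfrtInert A σ) {ζ : L} {n : ℕ} (hn : 0 < n) (hnA : A.valuation (n : L) = 1)
    (h : ζ ^ n = 1) : σ ζ = ζ := by
  by_contra hne
  have hζ0 : ζ ≠ 0 := by
    rintro rfl
    rw [zero_pow hn.ne'] at h
    exact zero_ne_one h
  set η : L := σ ζ * ζ⁻¹ with hη
  have hηn : η ^ n = 1 := by
    rw [hη, mul_pow, ← map_pow, h, map_one, inv_pow, h, inv_one, mul_one]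
  have hη1 : η ≠ 1 := by
    intro h'
    apply hne
    rw [hη, mul_inv_eq_one₀ hζ0] at h'
    exact h'
  have h2 := hσ.2 ζ (ffrt_root_mem hn h)
  have h3 : σ ζ - ζ = -(ζ * (1 - η)) := by
    rw [hη]; field_simp; ring
  rw [h3, ValuationSubring.mem_nonunits_iff, Valuation.map_neg, map_mul,
    ffrt_root_valuation hn h, ffrt_one_sub_root_valuation hn hnA hηn hη1, mul_one] at h2
  exact lt_irrefl _ h2

end Roots

section Teich

variable {L : Type*} [Field L] {A : ValuationSubring L} {ℓ : ℕ} [Fact ℓ.Prime]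

/-- integers prime to `ℓ` are units of `A`. -/
theorem ffrt_valuation_natCast_of_not_dvd (hA : (ℓ : L) ∈ A.nonunits) {n : ℕ} (hn : ¬ ℓ ∣ n) :
    A.valuation (n : L) = 1 := by
  have hcop : Nat.Coprime ℓ n := (Nat.Prime.coprime_iff_not_dvd Fact.out).mpr hn
  have hle : A.valuation (n : L) ≤ 1 := (A.valuation_le_one_iff _).mpr (ffrt_natCast_mem n)
  by_contra hne
  have hlt : A.valuation (n : L) < 1 := lt_of_le_of_ne hle hne
  have hℓ : A.valuation (ℓ : L) < 1 := (ValuationSubring.mem_nonunits_iff A).mp hA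
  -- Bezout
  have hb := Nat.gcd_eq_gcd_ab ℓ n
  rw [hcop.gcd_eq_one] at hb
  have hb' : (1 : L) = (ℓ : L) * ((Nat.gcdA ℓ n : ℤ) : L) + (n : L) * ((Nat.gcdB ℓ n : ℤ) : L) := by
    have := congrArg (fun z : ℤ => (z : L)) hb
    push_cast at this
    exact this
  have hint : ∀ z : ℤ, A.valuation (z : L) ≤ 1 := fun z => by
    rw [A.valuation_le_one_iff]
    have : (z : L) = ((z : A) : L) := by push_cast; rfl
    rw [this]; exact (z : A).2
  have h1 : A.valuation ((ℓ : L) * ((Nat.gcdA ℓ n : ℤ) : L)) < 1 := by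
    rw [map_mul]
    calc _ ≤ A.valuation (ℓ : L) * 1 := by gcongr; exact hint _
      _ < 1 := by rwa [mul_one]
  have h2 : A.valuation ((n : L) * ((Nat.gcdB ℓ n : ℤ) : L)) < 1 := by
    rw [map_mul]
    calc _ ≤ A.valuation (n : L) * 1 := by gcongr; exact hint _
      _ < 1 := by rwa [mul_one]
  have h3 : A.valuation (1 : L) < 1 := by
    rw [hb']
    exact lt_of_le_of_lt (A.valuation.map_add _ _) (max_lt h1 h2)
  rw [map_one] at h3
  exact lt_irrefl _ h3

theorem ffrt_residue_natCast_prime (hA : (ℓ : L) ∈ A.nonunits) : ((ℓ : ℕ) : ResidueField A) = 0 := by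
  have h1 : ((ℓ : ℕ) : ResidueField A) = residue A ((ℓ : ℕ) : A) := by rw [map_natCast]
  rw [h1, residue_eq_zero_iff]
  rw [ValuationSubring.mem_nonunits_iff_exists_mem_maximalIdeal] at hA
  obtain ⟨h, hm⟩ := hA
  have : (⟨(ℓ : L), h⟩ : A) = ((ℓ : ℕ) : A) := by
    apply Subtype.ext; push_cast; rfl
  rw [← this]; exact hm

theorem ffrt_charP (hA : (ℓ : L) ∈ A.nonunits) : CharP (ResidueField A) ℓ := by
  have h := CharP.ringChar_of_prime_eq_zero (R := ResidueField A) (Fact.out : ℓ.Prime)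
    (ffrt_residue_natCast_prime hA)
  exact h ▸ ringChar.charP _


/-- every nonzero element of the residue field is a root of unity of order prime to `ℓ`
(`L` algebraic over `ℤ`). -/
theorem ffrt_residue_pow_eq_one [CharZero L] (hA : (ℓ : L) ∈ A.nonunits)
    (halg : ∀ a : L, IsAlgebraic ℤ a) (κ : ResidueField A) (hκ : κ ≠ 0) :
    ∃ N : ℕ, 0 < N ∧ ¬ ℓ ∣ N ∧ κ ^ N = 1 := by
  haveI : CharP (ResidueField A) ℓ := ffrt_charP hA
  letI : Algebra (ZMod ℓ) (ResidueField A) := ZMod.algebra _ ℓ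
  obtain ⟨a, rfl⟩ := residue_surjective κ
  -- `κ` is algebraic over `𝔽_ℓ`
  have hint : IsIntegral (ZMod ℓ) (residue A a) := by
    obtain ⟨p, hp0, hpa⟩ := halg (a : L)
    -- primitive part
    have hprim : p.primPart.IsPrimitive := p.isPrimitive_primPart
    have hpp : aeval (a : L) p.primPart = 0 := by
      have h1 : p = C p.content * p.primPart := p.eq_C_content_mul_primPart
      rw [h1, map_mul, aeval_C] at hpa
      rcases mul_eq_zero.mp hpa with h | h
      · exfalso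
        have hc0 : p.content ≠ 0 := fun h' => hp0 (Polynomial.content_eq_zero_iff.mp h')
        have : ((p.content : ℤ) : L) = 0 := by simpa using h
        exact hc0 (by exact_mod_cast this)
      · exact h
    set q : (ZMod ℓ)[X] := p.primPart.map (Int.castRingHom (ZMod ℓ)) with hq
    have hq0 : q ≠ 0 := by
      intro h0
      have hdvd : C (ℓ : ℤ) ∣ p.primPart := by
        rw [Polynomial.C_dvd_iff_dvd_coeff]
        intro i
        have := congrArg (fun r => r.coeff i) h0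
        simp only [hq, coeff_map, coeff_zero, eq_intCast] at this
        exact (ZMod.intCast_zmod_eq_zero_iff_dvd _ _).mp this
      have hu := hprim _ hdvd
      have h1 : (ℓ : ℤ).natAbs = 1 := Int.isUnit_iff_natAbs_eq.mp hu
      have : ℓ = 1 := by simpa using h1
      exact (Fact.out : ℓ.Prime).one_lt.ne' this
    have hroot : aeval (residue A a) q = 0 := by
      rw [hq, aeval_def, eval₂_map]
      have h1 : ((algebraMap (ZMod ℓ) (ResidueField A)).comp (Int.castRingHom (ZMod ℓ))) =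
          (residue A).comp (Int.castRingHom A) := RingHom.ext_int _ _
      rw [h1, ← Polynomial.hom_eval₂]
      have h2 : eval₂ (Int.castRingHom A) a p.primPart = 0 := by
        apply Subtype.ext
        have h3 := Polynomial.hom_eval₂ p.primPart (Int.castRingHom A) A.subtype a
        have h4 : (A.subtype : A →+* L).comp (Int.castRingHom A) = algebraMap ℤ L :=
          RingHom.ext_int _ _
        rw [h4] at h3
        exact h3.trans hpp
      rw [h2, map_zero]
    exact (isAlgebraic_iff_isIntegral).mp ⟨q, hq0, hroot⟩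
  -- the finite field `𝔽_ℓ(κ)`
  let E := IntermediateField.adjoin (ZMod ℓ) {residue A a}
  haveI : FiniteDimensional (ZMod ℓ) E := IntermediateField.adjoin.finiteDimensional hint
  haveI : Finite E := Module.finite_of_finite (ZMod ℓ)
  haveI : Fintype E := Fintype.ofFinite E
  let κE : E := ⟨residue A a, IntermediateField.mem_adjoin_simple_self _ _⟩
  have hκE : κE ≠ 0 := fun h => hκ (congrArg Subtype.val h)
  obtain ⟨n, -, hn⟩ := FiniteField.card E ℓ
  have hpow := FiniteField.pow_card_sub_one_eq_one κE hκE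
  refine ⟨Fintype.card E - 1, ?_, ?_, ?_⟩
  · have : 1 < Fintype.card E := Fintype.one_lt_card
    omega
  · rw [hn]
    intro hdvd
    have h1 : ℓ ∣ ℓ ^ (n : ℕ) := dvd_pow_self ℓ n.ne_zero
    have h2 : 0 < ℓ ^ (n : ℕ) := Nat.pos_of_ne_zero (pow_ne_zero _ (Fact.out : ℓ.Prime).ne_zero)
    have h3 : ℓ ∣ 1 := by
      have := (Nat.dvd_sub_iff_right (Nat.one_le_of_lt h2) h1).mp hdvd
      exact this
    exact (Fact.out : ℓ.Prime).one_lt.ne' (Nat.dvd_one.mp h3)
  · have := congrArg Subtype.val hpow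
    simpa using this


/-- LIFTING ROOTS OF UNITY : every `N`-th root of unity of the residue field (`ℓ ∤ N`) is the residue
of an `N`-th root of unity of `L`. -/
theorem ffrt_exists_root_of_residue [IsAlgClosed L] [CharZero L] (hA : (ℓ : L) ∈ A.nonunits)
    {N : ℕ} (hN : 0 < N) (hℓN : ¬ ℓ ∣ N) (κ : ResidueField A) (hκ : κ ^ N = 1) :
    ∃ ζ : A, (ζ : L) ^ N = 1 ∧ residue A ζ = κ := by
  classical
  haveI : NeZero (N : L) := ⟨Nat.cast_ne_zero.mpr hN.ne'⟩
  obtain ⟨ζ, hζ⟩ := HasEnoughRootsOfUnity.exists_primitiveRoot L N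
  have hNA : A.valuation (N : L) = 1 := ffrt_valuation_natCast_of_not_dvd hA hℓN
  have hpow : ∀ i : ℕ, (ζ ^ i) ^ N = 1 := fun i => by
    rw [← pow_mul, mul_comm, pow_mul, hζ.pow_eq_one, one_pow]
  let f : Fin N → ResidueField A := fun i => residue A ⟨ζ ^ (i : ℕ), ffrt_root_mem hN (hpow i)⟩
  have hf : Function.Injective f := by
    intro i j hij
    by_contra hne
    have hne' : ζ ^ (i : ℕ) ≠ ζ ^ (j : ℕ) := by
      intro h
      exact hne (Fin.ext (hζ.pow_inj i.2 j.2 h))
    have hj0 : ζ ^ (j : ℕ) ≠ 0 := pow_ne_zero _ (hζ.ne_zero hN.ne')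
    set η : L := ζ ^ (i : ℕ) * (ζ ^ (j : ℕ))⁻¹ with hη
    have hηN : η ^ N = 1 := by rw [hη, mul_pow, hpow, inv_pow, hpow, inv_one, mul_one]
    have hη1 : η ≠ 1 := by
      intro h
      rw [hη, mul_inv_eq_one₀ hj0] at h
      exact hne' h
    have h1 : residue A (⟨ζ ^ (i : ℕ), ffrt_root_mem hN (hpow i)⟩ -
        ⟨ζ ^ (j : ℕ), ffrt_root_mem hN (hpow j)⟩) = 0 := by
      rw [map_sub]; exact sub_eq_zero.mpr hij
    rw [residue_eq_zero_iff] at h1
    have h2 : ζ ^ (i : ℕ) - ζ ^ (j : ℕ) ∈ A.nonunits := by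
      rw [ValuationSubring.mem_nonunits_iff_exists_mem_maximalIdeal]
      exact ⟨_, h1⟩
    have h3 : ζ ^ (i : ℕ) - ζ ^ (j : ℕ) = -(ζ ^ (j : ℕ) * (1 - η)) := by
      rw [hη]; field_simp; ring
    rw [h3, ValuationSubring.mem_nonunits_iff, Valuation.map_neg, map_mul,
      ffrt_root_valuation hN (hpow j), ffrt_one_sub_root_valuation hN hNA hηN hη1, mul_one] at h2
    exact lt_irrefl _ h2
  have hsub : Finset.image f Finset.univ ⊆ Polynomial.nthRootsFinset N (1 : ResidueField A) := by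
    intro x hx
    obtain ⟨i, -, rfl⟩ := Finset.mem_image.mp hx
    rw [Polynomial.mem_nthRootsFinset hN]
    show (residue A _) ^ N = 1
    rw [← map_pow]
    have : (⟨ζ ^ (i : ℕ), ffrt_root_mem hN (hpow i)⟩ : A) ^ N = 1 := Subtype.ext (by
      push_cast; exact hpow i)
    rw [this, map_one]
  have hcard : (Polynomial.nthRootsFinset N (1 : ResidueField A)).card ≤
      (Finset.image f Finset.univ).card := by
    rw [Finset.card_image_of_injective _ hf, Finset.card_univ, Fintype.card_fin]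
    rw [Polynomial.nthRootsFinset_def]
    exact (Multiset.toFinset_card_le _).trans (Polynomial.card_nthRoots N 1)
  have heq := Finset.eq_of_subset_of_card_le hsub hcard
  have hκmem : κ ∈ Finset.image f Finset.univ := by
    rw [heq, Polynomial.mem_nthRootsFinset hN]; exact hκ
  obtain ⟨i, -, hi⟩ := Finset.mem_image.mp hκmem
  exact ⟨⟨ζ ^ (i : ℕ), ffrt_root_mem hN (hpow i)⟩, hpow i, hi⟩

/-- TEICHMÜLLER LIFTS : every element of the residue field is the residue of `0` or of a root of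
unity of order prime to `ℓ`. -/
theorem ffrt_exists_teich [IsAlgClosed L] [CharZero L] (hA : (ℓ : L) ∈ A.nonunits)
    (halg : ∀ a : L, IsAlgebraic ℤ a) (κ : ResidueField A) :
    ∃ a : A, residue A a = κ ∧ (a = 0 ∨ ∃ N : ℕ, 0 < N ∧ ¬ ℓ ∣ N ∧ (a : L) ^ N = 1) := by
  by_cases hκ : κ = 0
  · exact ⟨0, by rw [map_zero, hκ], Or.inl rfl⟩
  · obtain ⟨N, hN, hℓN, hpow⟩ := ffrt_residue_pow_eq_one hA halg κ hκ
    obtain ⟨ζ, hζ, hres⟩ := ffrt_exists_root_of_residue hA hN hℓN κ hpow
    exact ⟨ζ, hres, Or.inr ⟨N, hN, hℓN, hζ⟩⟩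

end Teich

end Fermat.Agent.FF
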